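/-
S48 (Deligne-Serre), block BB, sub-block U (architect helper108).
U0: the API of `IsLvl F₀ H N`.

* `phiB F₀ N`          : `f(q) ↦ f(t ^ N)` on `FB F₀`;
* `Psi hL`             : the embedding `FB F₀ →ₐ[ℚ̄] LL N`, `texpLL_Psi`;
* `jB hL`              : `j` as an element of `FB F₀`;
* `isUniformization hL`: `IsUniformization (jB hL) H (Psi hL)`;
* `finiteIndex hL`, `exists_finset_adjoin_eq_top hL`, `exists_Psi_eq_of_fixed hL`,
  `finiteDimensional hL`, `finrank_eq_index hL`, `isFF1 hL`, `real hL`.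
-/
import Fermat.Agent.S48.BB.Base
import Fermat.Agent.GAL.Mult.API
import Fermat.Agent.S18.Descent.FF1

set_option autoImplicit false

noncomputable section

namespace Fermat.Agent.S48.BB.U

open ModularCurve AlgebraicCurve CongruenceSubgroup IntermediateField
open Fermat.Agent.S24 Fermat.Agent.S24.B Fermat.Agent.S24.FF Fermat.Agent.GAL.Mult
open scoped MatrixGroups

variable {F₀ : IntermediateField ℚ (LaurentSeries ℚ)} {H : Subgroup SL(2, ℤ)} {N : ℕ} [NeZero N]

/-- shortcut instance (the generic search is very slow) -/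
instance instAlgebraKbarFB : Algebra Kbar (FB F₀) := inferInstance

/-- shortcut instance (the generic search is very slow) -/
instance instModuleKbarFB : Module Kbar (FB F₀) := Algebra.toModule

/-- An element of `F₀` as an element of `FB F₀`. -/
def ofQ (f : F₀) : FB F₀ := ⟨coeffEmb Kbar f.1, coeffEmb_mem_laurentBaseChange Kbar f.2⟩

theorem coe_ofQ (f : F₀) : ((ofQ f : FB F₀) : LaurentSeries Kbar) = coeffEmb Kbar f.1 := rfl

/-- Induction principle on `FB F₀`. -/
theorem FB_induction {P : FB F₀ → Prop} (hQ : ∀ f : F₀, P (ofQ f))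
    (hc : ∀ c : Kbar, P (algebraMap Kbar (FB F₀) c)) (hadd : ∀ f g, P f → P g → P (f + g))
    (hmul : ∀ f g, P f → P g → P (f * g)) (hinv : ∀ f, P f → P f⁻¹) (f : FB F₀) : P f := by
  obtain ⟨x, hx⟩ := f
  have key : ∀ (y : LaurentSeries Kbar) (hy : y ∈ laurentBaseChange Kbar F₀),
      P (⟨y, hy⟩ : FB F₀) := by
    intro y hy
    induction hy using IntermediateField.adjoin_induction with
    | mem y hy =>
      obtain ⟨z, hz, rfl⟩ := hy
      exact hQ ⟨z, hz⟩
    | algebraMap c => exact hc c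
    | add y z hy hz h1 h2 => exact hadd ⟨y, hy⟩ ⟨z, hz⟩ h1 h2
    | inv y hy h1 => exact hinv ⟨y, hy⟩ h1
    | mul y z hy hz h1 h2 => exact hmul ⟨y, hy⟩ ⟨z, hz⟩ h1 h2
  exact key x hx

variable (F₀ N) in
/-- `f(q) ↦ f(t ^ N)` on `FB F₀`. -/
def phiB : FB F₀ →ₐ[Kbar] LaurentSeries Kbar where
  toFun f := qExpand Kbar N f.1
  map_one' := map_one _
  map_mul' _ _ := map_mul _ _ _
  map_zero' := map_zero _
  map_add' _ _ := map_add _ _ _
  commutes' c := by
    show qExpand Kbar N (algebraMap Kbar (LaurentSeries Kbar) c) = _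
    rw [algebraMap_laurentSeries_eq_single, qExpand_single, mul_zero]

theorem phiB_apply (f : FB F₀) : phiB F₀ N f = qExpand Kbar N (f : LaurentSeries Kbar) := rfl

theorem phiB_mem_fieldRange (hL : IsLvl F₀ H N) (f : FB F₀) :
    phiB F₀ N f ∈ (texpLL N).fieldRange := by
  induction f using FB_induction with
  | hQ f =>
    obtain ⟨g, hg⟩ := hL.real f.1 f.2
    exact ⟨g, hg⟩
  | hc c =>
    rw [AlgHom.commutes]
    exact IntermediateField.algebraMap_mem _ c
  | hadd f g hf hg => rw [map_add]; exact add_mem hf hg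
  | hmul f g hf hg => rw [map_mul]; exact mul_mem hf hg
  | hinv f hf => rw [map_inv₀]; exact inv_mem hf

theorem exists_texpLL_eq (hL : IsLvl F₀ H N) (f : FB F₀) :
    ∃ g : LL N, texpLL N g = phiB F₀ N f := phiB_mem_fieldRange hL f

/-- The embedding of `FB F₀` in the field `LL N` of modular functions. -/
def Psi (hL : IsLvl F₀ H N) : FB F₀ →ₐ[Kbar] LL N where
  toFun f := (exists_texpLL_eq hL f).choose
  map_one' := texpLL_injective (by rw [(exists_texpLL_eq hL _).choose_spec, map_one, map_one])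
  map_mul' f g := texpLL_injective (by
    rw [(exists_texpLL_eq hL _).choose_spec, map_mul, map_mul, (exists_texpLL_eq hL _).choose_spec,
      (exists_texpLL_eq hL _).choose_spec])
  map_zero' := texpLL_injective (by rw [(exists_texpLL_eq hL _).choose_spec, map_zero, map_zero])
  map_add' f g := texpLL_injective (by
    rw [(exists_texpLL_eq hL _).choose_spec, map_add, map_add, (exists_texpLL_eq hL _).choose_spec,
      (exists_texpLL_eq hL _).choose_spec])
  commutes' c := texpLL_injective (by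
    rw [(exists_texpLL_eq hL _).choose_spec, AlgHom.commutes, AlgHom.commutes])

theorem texpLL_Psi (hL : IsLvl F₀ H N) (f : FB F₀) :
    texpLL N (Psi hL f) = qExpand Kbar N (f : LaurentSeries Kbar) :=
  (exists_texpLL_eq hL f).choose_spec

theorem Psi_injective (hL : IsLvl F₀ H N) : Function.Injective (Psi hL) :=
  (Psi hL).toRingHom.injective

/-- `Psi hL f` is characterised by its `t`-expansion. -/
theorem Psi_eq_iff (hL : IsLvl F₀ H N) (f : FB F₀) (g : LL N) :
    Psi hL f = g ↔ texpLL N g = qExpand Kbar N (f : LaurentSeries Kbar) := by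
  constructor
  · rintro rfl
    exact texpLL_Psi hL f
  · intro h
    exact texpLL_injective (by rw [texpLL_Psi, h])

theorem realises_Psi_ofQ (hL : IsLvl F₀ H N) (f : F₀) : Realises N (Psi hL (ofQ f)) f.1 :=
  texpLL_Psi hL (ofQ f)

theorem Psi_ofQ_eq (hL : IsLvl F₀ H N) (f : F₀) {g : LL N} (hg : Realises N g f.1) :
    Psi hL (ofQ f) = g := (Psi_eq_iff hL _ g).2 hg

/-- `j` as an element of `FB F₀`. -/
def jB (hL : IsLvl F₀ H N) : FB F₀ := ofQ ⟨jq, hL.j_mem⟩

theorem coe_jB (hL : IsLvl F₀ H N) :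
    ((jB hL : FB F₀) : LaurentSeries Kbar) = coeffEmb Kbar jq := rfl

theorem coe_jB' (hL : IsLvl F₀ H N) : ((jB hL : FB F₀) : LaurentSeries Kbar) = Jser 1 := by
  rw [coe_jB, Formal.Jser_one]

theorem Psi_jB (hL : IsLvl F₀ H N) : Psi hL (jB hL) = PsiL N (jF N) := by
  rw [Psi_eq_iff, texpLL_PsiL, coe_jB']
  rfl

theorem transcendental_jB (hL : IsLvl F₀ H N) : Transcendental Kbar (jB hL) := by
  rintro ⟨p, hp, h0⟩
  refine Formal.transcendental_Jser_one ⟨p, hp, ?_⟩
  have h := congrArg (laurentBaseChange Kbar F₀).val h0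
  rw [← Polynomial.aeval_algHom_apply, map_zero] at h
  rw [← coe_jB' hL]
  exact h

theorem smul_Psi_of_mem (hL : IsLvl F₀ H N) (γ : SL(2, ℤ)) (hγ : γ ∈ H) (f : FB F₀) :
    γ • Psi hL f = Psi hL f := by
  induction f using FB_induction with
  | hQ f => exact hL.inv f.1 f.2 _ (realises_Psi_ofQ hL f) γ hγ
  | hc c => rw [AlgHom.commutes, smul_algebraMap_Kbar_LL]
  | hadd f g hf hg => rw [map_add, smul_add, hf, hg]
  | hmul f g hf hg => rw [map_mul, smul_mul', hf, hg]
  | hinv f hf => rw [map_inv₀, smul_inv'', hf]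

theorem mem_of_smul_Psi (hL : IsLvl F₀ H N) (γ : SL(2, ℤ))
    (h : ∀ f : FB F₀, γ • Psi hL f = Psi hL f) : γ ∈ H := by
  refine hL.stab γ fun f hf g hg => ?_
  rw [← Psi_ofQ_eq hL ⟨f, hf⟩ hg]
  exact h _

theorem smul_Psi_jB (hL : IsLvl F₀ H N) (γ : SL(2, ℤ)) :
    γ • Psi hL (jB hL) = Psi hL (jB hL) := by
  rw [Psi_jB, InvariantsLL.smul_PsiL_jF]

theorem invariants (hL : IsLvl F₀ H N) (g : LL N) (hg : ∀ γ : SL(2, ℤ), γ • g = g) :
    ∃ r ∈ Kbar⟮jB hL⟯, Psi hL r = g := by
  obtain ⟨r, hr, rfl⟩ := invariants_LL g hg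
  obtain ⟨p, q, rfl⟩ := (IntermediateField.mem_adjoin_simple_iff Kbar r).1 hr
  have hmem : ∀ p : Polynomial Kbar, Polynomial.aeval (jB hL) p ∈ Kbar⟮jB hL⟯ := fun p =>
    IntermediateField.algebra_adjoin_le_adjoin Kbar _ (Polynomial.aeval_mem_adjoin_singleton Kbar _)
  refine ⟨Polynomial.aeval (jB hL) p / Polynomial.aeval (jB hL) q, div_mem (hmem p) (hmem q), ?_⟩
  rw [map_div₀, map_div₀, ← Polynomial.aeval_algHom_apply, ← Polynomial.aeval_algHom_apply,
    ← Polynomial.aeval_algHom_apply, ← Polynomial.aeval_algHom_apply, Psi_jB]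

/-- **U0**: the abstract uniformisation attached to `IsLvl`. -/
theorem isUniformization (hL : IsLvl F₀ H N) : IsUniformization (jB hL) H (Psi hL) where
  smul_algebraMap := smul_algebraMap_Kbar_LL
  smul_of_mem := smul_Psi_of_mem hL
  smul_x := smul_Psi_jB hL
  mem_of_smul := mem_of_smul_Psi hL
  invariants := invariants hL

theorem exists_finset_adjoin_eq_top (hL : IsLvl F₀ H N) :
    ∃ s : Finset (FB F₀), IntermediateField.adjoin Kbar (s : Set (FB F₀)) = ⊤ := by
  obtain ⟨s, hs⟩ := hL.fg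
  have h := S18.Descent.essFiniteType_laurentBaseChange (L := Kbar) s.finite_toSet hs
  exact IntermediateField.fg_top_iff.mpr h

/-- Every element of `LL N` has a finite orbit. -/
theorem finite_orbit_LL (x : LL N) : (MulAction.orbit SL(2, ℤ) x).Finite := by
  obtain ⟨a, b, -, rfl⟩ := IsFractionRing.div_surjective (A := AB N) x
  refine (Set.Finite.image2 (fun u v : AB N => algebraMap (AB N) (LL N) u / algebraMap (AB N) (LL N) v)
    (finite_orbit_AB a) (finite_orbit_AB b)).subset ?_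
  rintro _ ⟨γ, rfl⟩
  refine ⟨γ • a, ⟨γ, rfl⟩, γ • b, ⟨γ, rfl⟩, ?_⟩
  show _ = γ • (_ / _)
  rw [smul_div₀', smul_algebraMap_AB, smul_algebraMap_AB]

theorem finiteIndex_stabilizer_LL (x : LL N) : (MulAction.stabilizer SL(2, ℤ) x).FiniteIndex := by
  constructor
  rw [MulAction.index_stabilizer]
  exact Set.ncard_ne_zero_of_mem (MulAction.mem_orbit_self x) (finite_orbit_LL x)

theorem finiteIndex (hL : IsLvl F₀ H N) : H.FiniteIndex := by
  classical
  obtain ⟨s, hs⟩ := exists_finset_adjoin_eq_top hL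
  have h1 : (⨅ f : s, MulAction.stabilizer SL(2, ℤ) (Psi hL f.1)).FiniteIndex :=
    Subgroup.finiteIndex_iInf fun f => finiteIndex_stabilizer_LL _
  refine Subgroup.finiteIndex_of_le (H := ⨅ f : s, MulAction.stabilizer SL(2, ℤ) (Psi hL f.1)) ?_
  intro γ hγ
  rw [Subgroup.mem_iInf] at hγ
  apply mem_of_smul_Psi hL
  intro f
  have hf : f ∈ IntermediateField.adjoin Kbar (s : Set (FB F₀)) := by rw [hs]; trivial
  induction hf using IntermediateField.adjoin_induction with
  | mem y hy => exact hγ ⟨y, hy⟩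
  | algebraMap c => rw [AlgHom.commutes, smul_algebraMap_Kbar_LL]
  | add a b _ _ ha hb => rw [map_add, smul_add, ha, hb]
  | inv a _ ha => rw [map_inv₀, smul_inv'', ha]
  | mul a b _ _ ha hb => rw [map_mul, smul_mul', ha, hb]

/-- **Fixed field lemma**: the `H`-invariants of `LL N` are `Psi hL (FB F₀)`. -/
theorem exists_Psi_eq_of_fixed (hL : IsLvl F₀ H N) (y : LL N) (hy : ∀ γ ∈ H, γ • y = y) :
    ∃ f : FB F₀, Psi hL f = y :=
  haveI := finiteIndex hL
  mem_range_of_fixed (isUniformization hL) (exists_finset_adjoin_eq_top hL) y hy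

theorem finiteDimensional (hL : IsLvl F₀ H N) : FiniteDimensional Kbar⟮jB hL⟯ (FB F₀) :=
  haveI := finiteIndex hL
  CL.finiteDimensional_of_isUniformization (isUniformization hL) (exists_finset_adjoin_eq_top hL)

theorem finrank_eq_index (hL : IsLvl F₀ H N) :
    Module.finrank Kbar⟮jB hL⟯ (FB F₀) = H.index :=
  haveI := finiteIndex hL
  haveI := finiteDimensional hL
  CL.finrank_eq_index' (isUniformization hL)

/-- `FB F₀` is a function field in one variable over `ℚ̄`. -/
theorem isFF1 (hL : IsLvl F₀ H N) : IsFF1 Kbar (FB F₀) :=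
  haveI := finiteDimensional hL
  IsFF1.of_exists (jB hL)

/-- `FB F₀` realised as a field of meromorphic functions on the upper half plane. -/
def real (hL : IsLvl F₀ H N) : FB F₀ →ₐ[Kbar] MM := (embL N).comp (Psi hL)

theorem real_apply (hL : IsLvl F₀ H N) (u : FB F₀) : real hL u = embL N (Psi hL u) := rfl

theorem smul_real_of_mem (hL : IsLvl F₀ H N) (γ : SL(2, ℤ)) (hγ : γ ∈ H) (f : FB F₀) :
    sl γ • real hL f = real hL f := by
  rw [real_apply, ← embL_smul, smul_Psi_of_mem hL γ hγ]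

end Fermat.Agent.S48.BB.U

end
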