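/-
S48 (Deligne-Serre), block BB, sub-block U (architect helper108).
`IsLvl` from statements on generators.
-/
import Fermat.Agent.S48.BB.Base

set_option autoImplicit false

noncomputable section

namespace Fermat.Agent.S48.BB.U

open ModularCurve CongruenceSubgroup IntermediateField
open Fermat.Agent.S24 Fermat.Agent.S24.B Fermat.Agent.GAL.Mult
open scoped MatrixGroups

variable {N : ℕ} [NeZero N]

theorem realises_unique {g g' : LL N} {f : LaurentSeries ℚ} (h : Realises N g f)
    (h' : Realises N g' f) : g = g' :=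
  texpLL_injective (h.trans h'.symm)

theorem realises_add {g g' : LL N} {f f' : LaurentSeries ℚ} (h : Realises N g f)
    (h' : Realises N g' f') : Realises N (g + g') (f + f') := by
  unfold Realises at *
  rw [map_add, map_add, map_add, h, h']

theorem realises_mul {g g' : LL N} {f f' : LaurentSeries ℚ} (h : Realises N g f)
    (h' : Realises N g' f') : Realises N (g * g') (f * f') := by
  unfold Realises at *
  rw [map_mul, map_mul, map_mul, h, h']

theorem realises_inv {g : LL N} {f : LaurentSeries ℚ} (h : Realises N g f) :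
    Realises N g⁻¹ f⁻¹ := by
  unfold Realises at *
  rw [map_inv₀, map_inv₀, map_inv₀, h]

theorem realises_algebraMap (c : ℚ) :
    Realises N (algebraMap Kbar (LL N) (algebraMap ℚ Kbar c))
      (algebraMap ℚ (LaurentSeries ℚ) c) := by
  unfold Realises
  rw [AlgHom.commutes, algebraMap_apply_eq_single, algebraMap_laurentSeries_eq_single]
  have h : coeffEmb Kbar (HahnSeries.single (0 : ℤ) c) =
      HahnSeries.single (0 : ℤ) (algebraMap ℚ Kbar c) := by
    ext n
    by_cases hn : n = 0
    · subst hn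
      simp [coeffEmb]
    · simp [coeffEmb, HahnSeries.coeff_single_of_ne hn]
  rw [h, qExpand_single, mul_zero]

/-- **`IsLvl` from generators.** -/
theorem isLvl_adjoin {H : Subgroup SL(2, ℤ)} (S : Set (LaurentSeries ℚ)) (hS : S.Finite)
    (hj : jq ∈ adjoin ℚ S) (g : LaurentSeries ℚ → LL N)
    (hg : ∀ s ∈ S, Realises N (g s) s) (hinv : ∀ s ∈ S, ∀ γ ∈ H, γ • g s = g s)
    (hstab : ∀ γ : SL(2, ℤ), (∀ s ∈ S, γ • g s = g s) → γ ∈ H) :
    IsLvl (adjoin ℚ S) H N := by
  have key : ∀ f ∈ adjoin ℚ S, ∃ y : LL N, Realises N y f ∧ ∀ γ ∈ H, γ • y = y := by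
    intro f hf
    induction hf using IntermediateField.adjoin_induction with
    | mem y hy => exact ⟨g y, hg y hy, hinv y hy⟩
    | algebraMap c =>
      exact ⟨_, realises_algebraMap c, fun γ _ => smul_algebraMap_Kbar_LL γ _⟩
    | add y z _ _ h1 h2 =>
      obtain ⟨a, ha, ha'⟩ := h1
      obtain ⟨b, hb, hb'⟩ := h2
      exact ⟨a + b, realises_add ha hb, fun γ hγ => by rw [smul_add, ha' γ hγ, hb' γ hγ]⟩
    | inv y _ h1 =>
      obtain ⟨a, ha, ha'⟩ := h1
      exact ⟨a⁻¹, realises_inv ha, fun γ hγ => by rw [smul_inv'', ha' γ hγ]⟩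
    | mul y z _ _ h1 h2 =>
      obtain ⟨a, ha, ha'⟩ := h1
      obtain ⟨b, hb, hb'⟩ := h2
      exact ⟨a * b, realises_mul ha hb, fun γ hγ => by rw [smul_mul', ha' γ hγ, hb' γ hγ]⟩
  refine ⟨hj, ⟨hS.toFinset, by rw [Set.Finite.coe_toFinset]⟩, fun f hf => ?_, ?_, ?_⟩
  · obtain ⟨y, hy, -⟩ := key f hf
    exact ⟨y, hy⟩
  · intro f hf y hy γ hγ
    obtain ⟨y', hy', h⟩ := key f hf
    rw [realises_unique hy hy']
    exact h γ hγ
  · intro γ h
    exact hstab γ fun s hs => h s (subset_adjoin ℚ S hs) (g s) (hg s hs)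

end Fermat.Agent.S48.BB.U

end
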