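/-
S48 (Deligne-Serre), block BB, sub-block U (architect helper108).
Change of the `t`-level: `LL N → LL (N * k)`, `IsLvl F₀ H N → IsLvl F₀ H (N * k)`.
-/
import Fermat.Agent.S48.BB.U.Gen
import Fermat.Agent.Lib.EtaUnit.TExp.Level

set_option autoImplicit false

noncomputable section

namespace Fermat.Agent.S48.BB.U

open ModularCurve CongruenceSubgroup IntermediateField UpperHalfPlane
open Fermat.Agent.S24 Fermat.Agent.S24.B Fermat.Agent.GAL.Mult
open scoped MatrixGroups

variable {N : ℕ} [NeZero N] (k : ℕ) [NeZero k]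

theorem isAdm_level_mul {f : ℍ → ℂ} (h : IsAdm N f) : IsAdm (N * k) f where
  mdiff := h.mdiff
  texp γ := by
    obtain ⟨s, hs⟩ := h.texp γ
    exact ⟨_, hs.level_mul k⟩
  fin := h.fin

variable (N) in
/-- The inclusion `AB N ⊆ AB (N * k)`. -/
def liftAB : AB N →ₐ[Kbar] AB (N * k) :=
  Subalgebra.inclusion (fun _ hf => isAdm_level_mul k hf)

theorem liftAB_coe (f : AB N) : (liftAB N k f).1 = f.1 := rfl

theorem liftAB_injective : Function.Injective (liftAB N k) :=
  Subalgebra.inclusion_injective _

theorem liftAB_smul (γ : SL(2, ℤ)) (f : AB N) : liftAB N k (γ • f) = γ • liftAB N k f := rfl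

theorem texpB_liftAB (f : AB N) : texpB (N * k) (liftAB N k f) = qExpand Kbar k (texpB N f) :=
  texpB_eq ((hasTExp_texpB f).level_mul k)

variable (N) in
/-- The inclusion `LL N ⊆ LL (N * k)`. -/
def liftLL : LL N →ₐ[Kbar] LL (N * k) :=
  IsFractionRing.liftAlgHom (g := (IsScalarTower.toAlgHom Kbar (AB (N * k)) (LL (N * k))).comp
    (liftAB N k)) ((IsFractionRing.injective (AB (N * k)) (LL (N * k))).comp (liftAB_injective k))

theorem liftLL_algebraMap (f : AB N) :
    liftLL N k (algebraMap (AB N) (LL N) f) = algebraMap (AB (N * k)) (LL (N * k)) (liftAB N k f) :=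
  IsFractionRing.liftAlgHom_apply .. |>.trans (IsFractionRing.lift_algebraMap _ _)

theorem liftLL_injective : Function.Injective (liftLL N k) := (liftLL N k).toRingHom.injective

theorem liftLL_smul (γ : SL(2, ℤ)) (x : LL N) : liftLL N k (γ • x) = γ • liftLL N k x := by
  have h : (liftLL N k).toRingHom.comp (MulSemiringAction.toRingHom SL(2, ℤ) (LL N) γ) =
      (MulSemiringAction.toRingHom SL(2, ℤ) (LL (N * k)) γ).comp (liftLL N k).toRingHom := by
    apply IsLocalization.ringHom_ext (nonZeroDivisors (AB N))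
    ext f
    show liftLL N k (γ • algebraMap (AB N) (LL N) f) = γ • liftLL N k (algebraMap (AB N) (LL N) f)
    rw [smul_algebraMap_AB, liftLL_algebraMap, liftLL_algebraMap, smul_algebraMap_AB, liftAB_smul]
  exact RingHom.congr_fun h x

theorem texpLL_liftLL (x : LL N) :
    texpLL (N * k) (liftLL N k x) = qExpand Kbar k (texpLL N x) := by
  have h : (texpLL (N * k)).toRingHom.comp (liftLL N k).toRingHom =
      (qExpand Kbar k).comp (texpLL N).toRingHom := by
    apply IsLocalization.ringHom_ext (nonZeroDivisors (AB N))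
    refine RingHom.ext fun f => ?_
    show texpLL (N * k) (liftLL N k (algebraMap (AB N) (LL N) f)) =
      qExpand Kbar k (texpLL N (algebraMap (AB N) (LL N) f))
    rw [liftLL_algebraMap, texpLL_algebraMap, texpLL_algebraMap, texpB_liftAB]
  exact RingHom.congr_fun h x

theorem realises_liftLL {g : LL N} {f : LaurentSeries ℚ} (h : Realises N g f) :
    Realises (N * k) (liftLL N k g) f := by
  unfold Realises at *
  rw [texpLL_liftLL, h, qExpand_qExpand]
  exact qExpand_congr (mul_comm k N) _

/-- **Change of level.** -/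
theorem isLvl_level_mul {F₀ : IntermediateField ℚ (LaurentSeries ℚ)} {H : Subgroup SL(2, ℤ)}
    (hL : IsLvl F₀ H N) : IsLvl F₀ H (N * k) where
  j_mem := hL.j_mem
  fg := hL.fg
  real f hf := by
    obtain ⟨g, hg⟩ := hL.real f hf
    exact ⟨_, realises_liftLL k hg⟩
  inv f hf g' hg' γ hγ := by
    obtain ⟨g, hg⟩ := hL.real f hf
    rw [realises_unique hg' (realises_liftLL k hg), ← liftLL_smul, hL.inv f hf g hg γ hγ]
  stab γ h := by
    refine hL.stab γ fun f hf g hg => liftLL_injective k ?_
    rw [liftLL_smul]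
    exact h f hf _ (realises_liftLL k hg)

end Fermat.Agent.S48.BB.U

end
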