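/-
S48 (Deligne-Serre), block BB, sub-block U (architect helper108).
U2: point data and ramification of `FB F₀ / ℚ̄(j)` for `hL : IsLvl F₀ H N`
(port of `S24/B/Points.lean` and `S24/Export/Ramification.lean`).
-/
import Fermat.Agent.S48.BB.U.Basic
import Fermat.Agent.S24.B.Points
import Fermat.Agent.S24.Export.Ramification
import Fermat.Agent.Lib.Hauptmodul.RamDefs

set_option autoImplicit false

noncomputable section

namespace Fermat.Agent.S48.BB.U

open UpperHalfPlane Filter Topology ModularCurve AlgebraicCurve CongruenceSubgroup IntermediateField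
open Fermat.Agent.S24 Fermat.Agent.S24.B Fermat.Agent.S24.FF Fermat.Agent.GAL.Mult
open scoped MatrixGroups Real Manifold WithZero

variable {F₀ : IntermediateField ℚ (LaurentSeries ℚ)} {H : Subgroup SL(2, ℤ)} {N : ℕ} [NeZero N]

variable (N) in
/-- The Laurent expansion at `τ₀ ∈ ℍ` (in the disc coordinate) of an element of `LL N`. -/
def wexpLL (τ₀ : ℍ) : LL N →+* LaurentSeries ℂ := (wexpM τ₀).comp (embL N).toRingHom

theorem wexpLL_apply (τ₀ : ℍ) (g : LL N) : wexpLL N τ₀ g = wexpM τ₀ (embL N g) := rfl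

theorem wexpLL_algebraMap_Kbar (τ₀ : ℍ) (c : Kbar) :
    wexpLL N τ₀ (algebraMap Kbar (LL N) c) = HahnSeries.C (algebraMap Kbar ℂ c) := by
  rw [wexpLL_apply, AlgHom.commutes, wexpM_algebraMap_Kbar]

theorem wexpLL_smul (τ₀ : ℍ) (δ : SL(2, ℤ)) (μ : ℂˣ)
    (hδ : ∀ᶠ w in 𝓝 (0 : ℂ),
      δ⁻¹ • ofComplex (discInv τ₀ w) = ofComplex (discInv τ₀ ((μ : ℂ) * w))) (g : LL N) :
    wexpLL N τ₀ (δ • g) = twist μ (wexpLL N τ₀ g) := by
  rw [wexpLL_apply, embL_smul, wexpLL_apply]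
  refine wexpM_smul τ₀ (sl δ) μ ?_ _
  filter_upwards [hδ] with w hw
  rw [← map_inv, sl_smul, hw]

theorem wexpLL_lnToLL (τ₀ : ℍ) (x : LN N) : wexpLL N τ₀ (lnToLL N x) = wexpL N τ₀ x :=
  wexpM_embL_lnToLL τ₀ x

theorem Psi_jB_sub (hL : IsLvl F₀ H N) (c : Kbar) :
    Psi hL (jB hL - algebraMap Kbar (FB F₀) c) =
      lnToLL N (S24.B.Psi N (jF N - algebraMap Kbar (FN N) c)) := by
  rw [map_sub, Psi_jB, AlgHom.commutes, map_sub, map_sub, AlgHom.commutes, AlgHom.commutes,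
    PsiL_apply]

theorem pointDatum_of_fixed (hL : IsLvl F₀ H N) (τ₀ : ℍ) (c : Kbar) (hc : jfun τ₀ = iota c)
    (δ : SL(2, ℤ)) (E : ℕ) (hE : 0 < E) (μ : ℂˣ) (hμ : IsPrimitiveRoot μ E)
    (hδ : ∀ᶠ w in 𝓝 (0 : ℂ),
      δ⁻¹ • ofComplex (discInv τ₀ w) = ofComplex (discInv τ₀ ((μ : ℂ) * w)))
    (hord : ordAt τ₀ (fun τ => jfun τ - jfun τ₀) = E) :
    IsPointDatum (Psi hL) (jB hL - algebraMap Kbar (FB F₀) c)
      ((lval ℂ).comap (wexpLL N τ₀)) δ E := by
  have hy : (wexpLL N τ₀ (Psi hL (jB hL - algebraMap Kbar (FB F₀) c))).order = (E : ℤ) := by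
    rw [Psi_jB_sub, wexpLL_lnToLL, Psi_jF_sub, wexpL_algebraMap]
    apply order_ofPowerSeries
    rw [order_wexp, ← hord]
    congr 1
    funext τ
    show (jd N 1 (one_dvd N)).1 τ - iota c = _
    rw [jd_one_apply, hc]
  exact isPointDatum_of_expansion (K := Kbar) (C := ℂ) (L := LL N) (G := SL(2, ℤ)) (Psi hL)
    (jB hL - algebraMap Kbar (FB F₀) c) δ E hE (wexpLL N τ₀) (wexpLL_algebraMap_Kbar τ₀) μ hμ
    (wexpLL_smul τ₀ δ μ hδ) hy

theorem pointDatum_generic (hL : IsLvl F₀ H N) (c : Kbar) (h0 : c ≠ 0) (h1 : c ≠ 1728) :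
    ∃ V : Valuation (LL N) ℤᵐ⁰,
      IsPointDatum (Psi hL) (jB hL - algebraMap Kbar (FB F₀) c) V (1 : SL(2, ℤ)) 1 := by
  obtain ⟨τ₀, hτ₀⟩ := Stubs.jfun_surjective (iota c)
  refine ⟨_, pointDatum_of_fixed hL τ₀ c hτ₀ 1 1 one_pos 1 IsPrimitiveRoot.one ?_ ?_⟩
  · refine Filter.Eventually.of_forall fun w => ?_
    rw [inv_one, one_smul, Units.val_one, one_mul]
  · rw [Nat.cast_one]
    refine Stubs.ordAt_jfun_generic τ₀ ?_ ?_
    · rw [hτ₀]
      exact fun h => h0 (iota_injective (by rw [h, map_zero]))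
    · rw [hτ₀]
      exact fun h => h1 (iota_injective (by rw [h, map_ofNat]))

theorem pointDatum_I (hL : IsLvl F₀ H N) : ∃ V : Valuation (LL N) ℤᵐ⁰,
    IsPointDatum (Psi hL) (jB hL - algebraMap Kbar (FB F₀) 1728) V ModularGroup.S 2 := by
  refine ⟨_, pointDatum_of_fixed hL UpperHalfPlane.I 1728 ?_ ModularGroup.S 2 two_pos (-1)
    isPrimitiveRoot_neg_one ?_ ?_⟩
  · rw [Stubs.jfun_I, map_ofNat]
  · simpa using S_inv_discInv
  · rw [Stubs.jfun_I]
    exact Stubs.ordAt_jfun_I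

theorem pointDatum_rho (hL : IsLvl F₀ H N) : ∃ V : Valuation (LL N) ℤᵐ⁰,
    IsPointDatum (Psi hL) (jB hL - algebraMap Kbar (FB F₀) 0) V
      (ModularGroup.S * ModularGroup.T) 3 := by
  refine ⟨_, pointDatum_of_fixed hL rho 0 ?_ (ModularGroup.S * ModularGroup.T) 3 (by norm_num)
    (Units.mk0 (rho : ℂ) rho_ne_zero) isPrimitiveRoot_rho ?_ ?_⟩
  · rw [Stubs.jfun_rho, map_zero]
  · exact ST_inv_discInv
  · rw [Stubs.jfun_rho]
    simpa using Stubs.ordAt_jfun_rho

theorem pointDatum_infty (hL : IsLvl F₀ H N) :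
    IsPointDatum (Psi hL) (jB hL)⁻¹ ((lval Kbar).comap (texpLL N).toRingHom) ModularGroup.T N := by
  refine isPointDatum_of_expansion (C := Kbar) (Psi hL) _ ModularGroup.T N
    (Nat.pos_of_ne_zero (NeZero.ne N)) (texpLL N).toRingHom ?_ (zetaK N)⁻¹
    (isPrimitiveRoot_zetaK N).inv texpLL_T_smul ?_
  · intro a
    show texpLL N (algebraMap Kbar (LL N) a) = _
    rw [AlgHom.commutes, ModularCurve.algebraMap_laurentSeries_eq_single]
    rfl
  · show (texpLL N (Psi hL (jB hL)⁻¹)).order = _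
    rw [map_inv₀, map_inv₀, texpLL_Psi, coe_jB']
    have h2 : ModularCurve.qExpand Kbar N (Jser 1) ≠ 0 := fun h =>
      Jser_one_ne_zero (ModularCurve.qExpand_injective (R := Kbar) (N := N) (by rw [h, map_zero]))
    have h3 : (ModularCurve.qExpand Kbar N (Jser 1))⁻¹ ≠ 0 := inv_ne_zero h2
    have h4 := HahnSeries.order_mul h2 h3
    rw [mul_inv_cancel₀ h2, HahnSeries.order_one, order_qExpand, order_Jser_one] at h4
    linarith

/-! ### Ramification of `FB F₀` over the `j`-line -/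

/-- unramified over `j = c`, `c ≠ 0, 1728`. -/
theorem ord_jB_sub_eq_one (hL : IsLvl F₀ H N) (c : Kbar) (h0 : c ≠ 0) (h1 : c ≠ 1728)
    (v : Place Kbar (FB F₀)) (hv : 0 < v.ord (jB hL - algebraMap Kbar (FB F₀) c)) :
    v.ord (jB hL - algebraMap Kbar (FB F₀) c) = 1 := by
  have := finiteIndex hL
  have := finiteDimensional hL
  obtain ⟨V, hV⟩ := pointDatum_generic hL c h0 h1
  have h := Export.ord_dvd_of_isPointDatum (transcendental_jB hL) (isUniformization hL)
    (Export.adjoin_sub_const _ _) hV v hv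
  exact Int.eq_one_of_dvd_one hv.le (by simpa using h)

theorem ord_jB_sub_1728_dvd (hL : IsLvl F₀ H N) (v : Place Kbar (FB F₀))
    (hv : 0 < v.ord (jB hL - algebraMap Kbar (FB F₀) 1728)) :
    v.ord (jB hL - algebraMap Kbar (FB F₀) 1728) ∣ 2 := by
  have := finiteIndex hL
  have := finiteDimensional hL
  obtain ⟨V, hV⟩ := pointDatum_I hL
  exact Export.ord_dvd_of_isPointDatum (transcendental_jB hL) (isUniformization hL)
    (Export.adjoin_sub_const _ _) hV v hv

theorem ord_jB_dvd (hL : IsLvl F₀ H N) (v : Place Kbar (FB F₀)) (hv : 0 < v.ord (jB hL)) :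
    v.ord (jB hL) ∣ 3 := by
  have := finiteIndex hL
  have := finiteDimensional hL
  obtain ⟨V, hV⟩ := pointDatum_rho hL
  have h := Export.ord_dvd_of_isPointDatum (transcendental_jB hL) (isUniformization hL)
    (Export.adjoin_sub_const _ _) hV v (by simpa using hv)
  simpa using h

/-- at the cusps the ramification index divides `N`. -/
theorem ord_jB_dvd_of_neg (hL : IsLvl F₀ H N) (v : Place Kbar (FB F₀)) (hv : v.ord (jB hL) < 0) :
    v.ord (jB hL) ∣ (N : ℤ) := by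
  have := finiteIndex hL
  have := finiteDimensional hL
  have h := Export.ord_dvd_of_isPointDatum (transcendental_jB hL) (isUniformization hL)
    (Export.adjoin_inv _) (pointDatum_infty hL) v (by rw [Place.ord_inv]; omega)
  rw [Place.ord_inv] at h
  exact (neg_dvd).1 h

/-- The abstract ramification data of the `j`-line consumed by `Lib/Hauptmodul/Ram2, Ram3`. -/
theorem jRam (hL : IsLvl F₀ H N) : Lib.Hauptmodul.JRam Kbar (jB hL) where
  transc := transcendental_jB hL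
  generic := fun c h0 h1 v hv => ord_jB_sub_eq_one hL c h0 h1 v hv
  at1728 := fun v hv => ord_jB_sub_1728_dvd hL v hv
  at0 := fun v hv => ord_jB_dvd hL v hv

end Fermat.Agent.S48.BB.U

end
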